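import Mathlib

/-!
# Dedekind's theorem on Frobenius elements and cycle types

If a monic `f ∈ ℤ[X]` is separable modulo `p`, some element of its Galois group acts on the
roots as `x ↦ x ^ p` does on the roots modulo `p`.
-/

namespace Fermat.Agent.VanDerWaerden

open Polynomial
open scoped Polynomial

variable {f : ℤ[X]} {p : ℕ} [hp : Fact p.Prime]

/-- **Dedekind**: a Frobenius element at a prime of good reduction. -/
theorem exists_frobenius {L : Type} [Field L] [Algebra ℚ L]
    [IsSplittingField ℚ L (f.map (Int.castRingHom ℚ))] (hf : f.Monic)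
    (hsep : (f.map (Int.castRingHom (ZMod p))).Separable) :
    ∃ (σ : L ≃ₐ[ℚ] L) (k : Type) (_ : Field k) (_ : Algebra (ZMod p) k)
      (_ : FiniteDimensional (ZMod p) k) (e : L → k),
      ((f.map (Int.castRingHom (ZMod p))).map (algebraMap (ZMod p) k)).Splits ∧
      Set.BijOn e ((f.map (Int.castRingHom ℚ)).rootSet L)
        ((f.map (Int.castRingHom (ZMod p))).rootSet k) ∧
      ∀ x ∈ (f.map (Int.castRingHom ℚ)).rootSet L, e (σ x) = e x ^ p := by
  classical
  set fQ := f.map (Int.castRingHom ℚ) with hfQ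
  set fp := f.map (Int.castRingHom (ZMod p)) with hfp
  set B := Algebra.adjoin ℤ (fQ.rootSet L)
  have : CharZero L := charZero_of_injective_algebraMap (algebraMap ℚ L).injective
  have : FiniteDimensional ℚ L := IsSplittingField.finiteDimensional L fQ
  have : Normal ℚ L := Normal.of_isSplittingField fQ
  have : IsGalois ℚ L := { }
  have hZ : ((algebraMap ℚ L).comp (Int.castRingHom ℚ)) = algebraMap ℤ L := RingHom.ext_int _ _
  have hmapL : fQ.map (algebraMap ℚ L) = f.map (algebraMap ℤ L) := by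
    rw [hfQ, Polynomial.map_map, hZ]
  have hroot0 : ∀ x ∈ fQ.rootSet L, IsIntegral ℤ x := by
    intro x hx
    refine ⟨f, hf, ?_⟩
    rw [← eval_map, ← hmapL, eval_map_algebraMap]
    exact (mem_rootSet.1 hx).2
  have hfin : Module.Finite ℤ B :=
    Module.Finite.iff_fg.2 (fg_adjoin_of_finite (rootSet_finite fQ L) hroot0)
  have hint : Algebra.IsIntegral ℤ B := Algebra.IsIntegral.of_finite ℤ B
  -- the action of the Galois group on `ℤ[roots]`
  have hmaps : ∀ (σ : L ≃ₐ[ℚ] L), ∀ x ∈ B, σ x ∈ B := by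
    intro σ x hx
    induction hx using Algebra.adjoin_induction with
    | mem y hy => exact Algebra.subset_adjoin (fQ.rootSet_mapsTo σ.toAlgHom hy)
    | algebraMap a =>
      rw [eq_intCast, map_intCast]
      exact intCast_mem B a
    | add y z _ _ hy hz => rw [map_add]; exact add_mem hy hz
    | mul y z _ _ hy hz => rw [map_mul]; exact mul_mem hy hz
  let act : MulSemiringAction (L ≃ₐ[ℚ] L) B :=
    { smul := fun σ b => ⟨σ b, hmaps σ b b.2⟩
      one_smul := fun _ => rfl
      mul_smul := fun _ _ _ => rfl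
      smul_zero := fun σ => Subtype.ext (map_zero σ)
      smul_add := fun σ _ _ => Subtype.ext (map_add σ _ _)
      smul_one := fun σ => Subtype.ext (map_one σ)
      smul_mul := fun σ _ _ => Subtype.ext (map_mul σ _ _) }
  have : SMulCommClass (L ≃ₐ[ℚ] L) ℤ B := ⟨fun σ a b => Subtype.ext (map_zsmul σ a (b : L))⟩
  have : Algebra.IsInvariant ℤ B (L ≃ₐ[ℚ] L) := by
    refine ⟨fun b hb => ?_⟩
    have hmem : (b : L) ∈ (⊥ : IntermediateField ℚ L) :=
      (IsGalois.mem_bot_iff_fixed _).2 fun σ => congrArg Subtype.val (hb σ)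
    rw [IntermediateField.mem_bot] at hmem
    obtain ⟨q, hq⟩ := hmem
    have hqi : IsIntegral ℤ q := by
      rw [← isIntegral_algHom_iff ((Algebra.ofId ℚ L).restrictScalars ℤ) (algebraMap ℚ L).injective]
      show IsIntegral ℤ (algebraMap ℚ L q)
      rw [hq]
      exact (hint.isIntegral b).map B.val
    obtain ⟨a, ha⟩ := IsIntegrallyClosed.isIntegral_iff.1 hqi
    refine ⟨a, Subtype.ext ?_⟩
    rw [Subalgebra.coe_algebraMap, ← hq, ← ha, eq_intCast, eq_intCast, map_intCast]
  -- a prime above `p`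
  have hpu : ¬ IsUnit (p : B) := by
    intro h
    obtain ⟨b, hb⟩ := h.exists_left_inv
    have hi : IsIntegral ℤ ((p : ℚ)⁻¹) := by
      rw [← isIntegral_algHom_iff ((Algebra.ofId ℚ L).restrictScalars ℤ) (algebraMap ℚ L).injective]
      show IsIntegral ℤ (algebraMap ℚ L (p : ℚ)⁻¹)
      have hb' : (b : L) * (p : L) = 1 := by simpa using congrArg Subtype.val hb
      rw [map_inv₀, map_natCast, ← eq_inv_of_mul_eq_one_left hb']
      exact (hint.isIntegral b).map B.val
    obtain ⟨a, ha⟩ := IsIntegrallyClosed.isIntegral_iff.1 hi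
    rw [eq_intCast] at ha
    have h1 : (a : ℚ) * p = 1 := by
      rw [ha, inv_mul_cancel₀ (Nat.cast_ne_zero.2 hp.out.ne_zero)]
    have h2 : a * (p : ℤ) = 1 := by exact_mod_cast h1
    have := hp.out.two_le
    rcases Int.eq_one_or_neg_one_of_mul_eq_one h2 with rfl | rfl <;> omega
  obtain ⟨P, hP, hpP⟩ := Ideal.exists_le_maximal (Ideal.span {(p : B)})
    (by rwa [Ne, Ideal.span_singleton_eq_top])
  have hp0 : ((p : ℕ) : B ⧸ P) = 0 := by
    rw [← map_natCast (Ideal.Quotient.mk P), Ideal.Quotient.eq_zero_iff_mem]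
    exact hpP (Ideal.mem_span_singleton_self _)
  have : CharP (B ⧸ P) p := (CharP.charP_iff_prime_eq_zero hp.out).2 hp0
  let _ : Field (B ⧸ P) := Ideal.Quotient.field P
  let _ : Algebra (ZMod p) (B ⧸ P) := ZMod.algebra _ p
  have : IsScalarTower ℤ (ZMod p) (B ⧸ P) := IsScalarTower.of_algebraMap_eq fun a => by simp
  have : Module.Finite (ZMod p) (B ⧸ P) :=
    Module.Finite.of_restrictScalars_finite ℤ (ZMod p) (B ⧸ P)
  have : Finite (B ⧸ P) := Module.finite_of_finite (ZMod p)
  obtain ⟨σ, hσ⟩ := IsArithFrobAt.exists_of_isInvariant ℤ (L ≃ₐ[ℚ] L) P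
  have hunder : P.under ℤ = Ideal.span {(p : ℤ)} := by
    ext a
    rw [Ideal.mem_comap, ← Ideal.Quotient.eq_zero_iff_mem, eq_intCast, map_intCast,
      Ideal.mem_span_singleton]
    exact CharP.intCast_eq_zero_iff (B ⧸ P) p a
  have hcard : Nat.card (ℤ ⧸ P.under ℤ) = p := by
    rw [hunder, Nat.card_congr (Int.quotientSpanNatEquivZMod p).toEquiv, Nat.card_zmod]
  let e : L → B ⧸ P := fun x => if h : x ∈ B then Ideal.Quotient.mk P ⟨x, h⟩ else 0
  -- the factorisation modulo `P`
  set A := (fQ.aroots L).toFinset with hA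
  have hA' : ∀ {x}, x ∈ A → x ∈ B := fun {x} hx => Algebra.subset_adjoin hx
  have hfacL : f.map (algebraMap ℤ L) = ((fQ.aroots L).map (X - C ·)).prod := by
    have hs : (f.map (algebraMap ℤ L)).Splits := hmapL ▸ IsSplittingField.splits L fQ
    rw [aroots_def, hmapL]
    exact hs.eq_prod_roots_of_monic (hf.map _)
  obtain ⟨rootsB, hrootsB⟩ : ∃ m : Multiset B, m.map Subtype.val = fQ.aroots L :=
    ⟨(fQ.aroots L).attach.map fun x => ⟨x.1, hA' (Multiset.mem_toFinset.2 x.2)⟩, by
      simp only [Multiset.map_map, Function.comp_def]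
      exact Multiset.attach_map_val _⟩
  have hfacB : f.map (algebraMap ℤ B) = (rootsB.map (X - C ·)).prod := by
    refine map_injective (B.val : B →ₐ[ℤ] L).toRingHom Subtype.val_injective ?_
    rw [Polynomial.map_multiset_prod, Multiset.map_map, Polynomial.map_map,
      RingHom.ext_int ((B.val : B →ₐ[ℤ] L).toRingHom.comp (algebraMap ℤ B)) (algebraMap ℤ L), hfacL,
      ← hrootsB, Multiset.map_map]
    congr 1
    exact Multiset.map_congr rfl fun b _ => by simp
  have hfack : fp.map (algebraMap (ZMod p) (B ⧸ P))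
      = (((fQ.aroots L).map e).map (X - C ·)).prod := by
    have h := congrArg (Polynomial.map (Ideal.Quotient.mk P)) hfacB
    rw [Polynomial.map_map, Polynomial.map_multiset_prod, Multiset.map_map] at h
    rw [hfp, Polynomial.map_map,
      RingHom.ext_int ((algebraMap (ZMod p) (B ⧸ P)).comp (Int.castRingHom (ZMod p)))
        ((Ideal.Quotient.mk P).comp (algebraMap ℤ B)), h, ← hrootsB, Multiset.map_map,
      Multiset.map_map]
    congr 1
    exact Multiset.map_congr rfl fun b _ => by simp [e, b.2]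
  have hroots : (fp.map (algebraMap (ZMod p) (B ⧸ P))).roots = (fQ.aroots L).map e := by
    rw [hfack, roots_multiset_prod_X_sub_C]
  have hnd : ((fQ.aroots L).map e).Nodup := hroots ▸ nodup_roots hsep.map
  have hrootSet : ∀ y, y ∈ fp.rootSet (B ⧸ P) ↔ y ∈ (fQ.aroots L).map e := by
    intro y
    rw [← hroots, rootSet_def, Finset.mem_coe, Multiset.mem_toFinset, aroots_def]
  refine ⟨σ, B ⧸ P, inferInstance, inferInstance, inferInstance, e, ?_, ⟨fun x hx => ?_,
    fun x hx y hy h => ?_, fun y hy => ?_⟩, fun x hx => ?_⟩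
  · rw [hfack]
    refine Splits.multisetProd fun q hq => ?_
    obtain ⟨y, -, rfl⟩ := Multiset.mem_map.1 hq
    exact Splits.X_sub_C y
  · exact (hrootSet _).2 (Multiset.mem_map_of_mem e (Multiset.mem_toFinset.1 hx))
  · exact Multiset.inj_on_of_nodup_map hnd _ (Multiset.mem_toFinset.1 hx) _
      (Multiset.mem_toFinset.1 hy) h
  · obtain ⟨x, hx, rfl⟩ := Multiset.mem_map.1 ((hrootSet y).1 hy)
    exact ⟨x, Multiset.mem_toFinset.2 hx, rfl⟩
  · have hxB : x ∈ B := Algebra.subset_adjoin hx
    have h := AlgHom.IsArithFrobAt.mk_apply hσ ⟨x, hxB⟩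
    rw [hcard] at h
    simp only [e, dif_pos hxB, dif_pos (hmaps σ x hxB)]
    exact h

/-- Two roots of an irreducible polynomial over `𝔽_p` differ by a power of Frobenius. -/
lemma exists_pow_eq_of_irreducible {k : Type*} [Field k] [Algebra (ZMod p) k]
    [FiniteDimensional (ZMod p) k] {h : (ZMod p)[X]} (hh : Irreducible h) {x y : k}
    (hx : aeval x h = 0) (hy : aeval y h = 0) : ∃ i : ℕ, x ^ p ^ i = y := by
  have : Finite k := Module.finite_of_finite (ZMod p)
  have hmin : aeval y (minpoly (ZMod p) x) = 0 := by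
    rw [← minpoly.eq_of_irreducible hh hx, map_mul, hy, zero_mul]
  obtain ⟨τ, hτ⟩ := minpoly.exists_algEquiv_of_root' ⟨h, hh.ne_zero, hx⟩ hmin
  obtain ⟨i, rfl⟩ := (FiniteField.bijective_frobeniusAlgEquivOfAlgebraic_pow (ZMod p) k).2 τ
  refine ⟨i, ?_⟩
  rw [← hτ, AlgEquiv.coe_pow, FiniteField.coe_frobeniusAlgEquivOfAlgebraic_iterate, ZMod.card]

end Fermat.Agent.VanDerWaerden
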