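import Mathlib

/-!
# Counting polynomials over `𝔽_p` of three factorisation types
-/

namespace Fermat.Agent.VanDerWaerden

open Polynomial
open scoped Polynomial Nat

/-- The monic polynomial `X ^ n + ∑ aᵢ X ^ i`. -/
noncomputable def monicOf {R : Type*} [CommRing R] {n : ℕ} (a : Fin n → R) : R[X] :=
  X ^ n + ∑ i, C (a i) * X ^ (i : ℕ)

lemma coeff_monicOf {R : Type*} [CommRing R] {n : ℕ} (a : Fin n → R) (j : ℕ) :
    (monicOf a).coeff j = if h : j < n then a ⟨j, h⟩ else if j = n then 1 else 0 := by
  classical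
  simp only [monicOf, coeff_add, coeff_X_pow, finsetSum_coeff, coeff_C_mul_X_pow]
  by_cases h : j < n
  · rw [dif_pos h, if_neg h.ne, zero_add, Finset.sum_eq_single (⟨j, h⟩ : Fin n)]
    · simp
    · exact fun i _ hi => if_neg fun hji => hi (Fin.ext hji.symm)
    · exact fun hi => absurd (Finset.mem_univ _) hi
  · rw [dif_neg h, Finset.sum_eq_zero fun i _ => if_neg (by omega), add_zero]

lemma monicOf_monic {R : Type*} [CommRing R] {n : ℕ} (a : Fin n → R) : (monicOf a).Monic := by
  refine monic_of_natDegree_le_of_coeff_eq_one n ?_ (by simp [coeff_monicOf])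
  exact natDegree_le_iff_coeff_eq_zero.2 fun j hj => by
    rw [coeff_monicOf, dif_neg (by omega), if_neg (by omega)]

lemma natDegree_monicOf {R : Type*} [CommRing R] [Nontrivial R] {n : ℕ} (a : Fin n → R) :
    (monicOf a).natDegree = n := by
  refine natDegree_eq_of_le_of_coeff_ne_zero ?_ (by simp [coeff_monicOf])
  exact natDegree_le_iff_coeff_eq_zero.2 fun j hj => by
    rw [coeff_monicOf, dif_neg (by omega), if_neg (by omega)]

lemma map_monicOf {R S : Type*} [CommRing R] [CommRing S] {n : ℕ} (ψ : R →+* S) (a : Fin n → R) :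
    (monicOf a).map ψ = monicOf (ψ ∘ a) := by
  simp [monicOf, Polynomial.map_sum]

lemma monicOf_injective {R : Type*} [CommRing R] {n : ℕ} :
    Function.Injective (monicOf (R := R) (n := n)) := fun a b h => funext fun i => by
  have := congrArg (fun q => q.coeff (i : ℕ)) h
  simpa [coeff_monicOf] using this

lemma exists_monicOf {R : Type*} [CommRing R] {n : ℕ} {q : R[X]} (hq : q.Monic)
    (hd : q.natDegree = n) : monicOf (fun i : Fin n => q.coeff i) = q := by
  ext j
  rw [coeff_monicOf]
  split_ifs with h1 h2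
  · rfl
  · subst h2
    rw [← hd, hq.coeff_natDegree]
  · exact (coeff_eq_zero_of_natDegree_lt (by omega)).symm

/-- Counting monic polynomials through their coefficient vectors. -/
lemma card_le_of_monic {R ι : Type*} [CommRing R] {n : ℕ} (s : Finset ι) (F : ι → R[X])
    (t : Finset (Fin n → R)) (hm : ∀ x ∈ s, (F x).Monic ∧ (F x).natDegree = n)
    (hmem : ∀ x ∈ s, ∀ a : Fin n → R, monicOf a = F x → a ∈ t) (hinj : Set.InjOn F s) :
    s.card ≤ t.card := by
  refine Finset.card_le_card_of_injOn (fun x (i : Fin n) => (F x).coeff i)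
    (fun x hx => hmem x hx _ (exists_monicOf (hm x hx).1 (hm x hx).2)) fun x hx y hy h => ?_
  refine hinj hx hy ?_
  have h' := congrArg monicOf h
  simp only [exists_monicOf (hm x hx).1 (hm x hx).2, exists_monicOf (hm y hy).1 (hm y hy).2] at h'
  exact h'

variable (p : ℕ) [hp : Fact p.Prime]

/-- The irreducible monic polynomials of degree `d` over `𝔽_p`. -/
noncomputable def irrSet (d : ℕ) : Finset (Fin d → ZMod p) := by
  classical exact Finset.univ.filter fun a => Irreducible (monicOf a)

variable {p}

lemma mem_irrSet {d : ℕ} {a : Fin d → ZMod p} : a ∈ irrSet p d ↔ Irreducible (monicOf a) := by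
  simp [irrSet]

lemma two_mul_sum_pow_le {q : ℕ} (hq : 3 ≤ q) : ∀ d, 2 * ∑ e ∈ Finset.range d, q ^ e ≤ q ^ d
  | 0 => by simp
  | d + 1 => by
    have := two_mul_sum_pow_le hq d
    rw [Finset.sum_range_succ, pow_succ]
    have := Nat.mul_le_mul_left (q ^ d) hq
    omega

lemma pow_le_card_irrSet_of_field (hp3 : 3 ≤ p) {d : ℕ} (K : Type) [Field K] [Fintype K]
    [Algebra (ZMod p) K] (hK : Fintype.card K = p ^ d) (hfr : Module.finrank (ZMod p) K = d) :
    p ^ d ≤ 2 * d * (irrSet p d).card := by
  classical
  have : FiniteDimensional (ZMod p) K := Module.Finite.of_finite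
  set full := (Finset.univ : Finset K).filter fun x => (minpoly (ZMod p) x).natDegree = d
  set small := (Finset.univ : Finset K).filter fun x => ¬ (minpoly (ZMod p) x).natDegree = d
  have hint : ∀ x : K, IsIntegral (ZMod p) x := fun x => IsIntegral.of_finite _ x
  have hsmall : small.card ≤ ∑ e ∈ Finset.range d, p ^ e := by
    refine (Finset.card_le_card (t := (Finset.range d).biUnion fun e =>
      ((X : K[X]) ^ p ^ e - X).roots.toFinset.filter fun _ => 0 < e) ?_).trans
      (Finset.card_biUnion_le.trans (Finset.sum_le_sum fun e _ => ?_))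
    · intro x hx
      have hne : (minpoly (ZMod p) x).natDegree ≠ d := (Finset.mem_filter.1 hx).2
      have hle : (minpoly (ZMod p) x).natDegree ≤ d := hfr ▸ minpoly.natDegree_le x
      set e := (minpoly (ZMod p) x).natDegree
      have he : 0 < e := minpoly.natDegree_pos (hint x)
      refine Finset.mem_biUnion.2 ⟨e, Finset.mem_range.2 (lt_of_le_of_ne hle hne),
        Finset.mem_filter.2 ⟨Multiset.mem_toFinset.2 ((mem_roots ?_).2 ?_), he⟩⟩
      · exact FiniteField.X_pow_card_pow_sub_X_ne_zero K he.ne' hp.out.one_lt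
      · set F := IntermediateField.adjoin (ZMod p) {x}
        have : Fintype F := Fintype.ofFinite F
        have hF : Fintype.card F = p ^ e := by
          rw [Module.card_eq_pow_finrank (K := ZMod p), ZMod.card,
            IntermediateField.adjoin.finrank (hint x)]
        have h := FiniteField.pow_card (⟨x, IntermediateField.mem_adjoin_simple_self _ x⟩ : F)
        rw [hF] at h
        have h' : x ^ p ^ e = x := congrArg Subtype.val h
        simp [IsRoot, h']
    · rcases Nat.eq_zero_or_pos e with rfl | he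
      · simp
      refine (Finset.card_filter_le _ _).trans ((Multiset.toFinset_card_le _).trans
        ((card_roots' _).trans ?_))
      rw [FiniteField.X_pow_card_pow_sub_X_natDegree_eq K he.ne' hp.out.one_lt]
  have hsum : full.card + small.card = p ^ d := by
    rw [Finset.card_filter_add_card_filter_not, Finset.card_univ, hK]
  set co : K → (Fin d → ZMod p) := fun x i => (minpoly (ZMod p) x).coeff i
  have hco : ∀ x ∈ full, monicOf (co x) = minpoly (ZMod p) x := fun x hx =>
    exists_monicOf (minpoly.monic (hint x)) (Finset.mem_filter.1 hx).2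
  have hfull : full.card ≤ d * (irrSet p d).card := by
    refine (Finset.card_le_mul_card_image (f := co) full d fun a _ => ?_).trans
      (Nat.mul_le_mul_left d (Finset.card_le_card fun a ha => ?_))
    · refine (card_le_degree_of_subset_roots (p := (monicOf a).map (algebraMap (ZMod p) K))
        fun x hx => ?_).trans_eq ?_
      · obtain ⟨hxf, hxa⟩ : x ∈ full ∧ co x = a :=
          Finset.mem_filter.1 (show x ∈ {x ∈ full | co x = a} from hx)
        refine (mem_roots (map_monic_ne_zero (monicOf_monic a))).2 ?_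
        rw [IsRoot, eval_map_algebraMap, ← hxa, hco x hxf, minpoly.aeval]
      · rw [natDegree_map, natDegree_monicOf]
    · obtain ⟨x, hx, rfl⟩ := Finset.mem_image.1 ha
      rw [mem_irrSet, hco x hx]
      exact minpoly.irreducible (hint x)
  have := two_mul_sum_pow_le hp3 d
  rw [mul_assoc]
  omega

/-- There are at least `p ^ d / (2 d)` irreducible monic polynomials of degree `d`. -/
theorem pow_le_card_irrSet (hp3 : 3 ≤ p) {d : ℕ} (hd : 0 < d) :
    p ^ d ≤ 2 * d * (irrSet p d).card := by
  let _ : Fintype (GaloisField p d) := Fintype.ofFinite _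
  exact pow_le_card_irrSet_of_field hp3 (GaloisField p d)
    (by rw [← Nat.card_eq_fintype_card, GaloisField.card p d hd.ne'])
    (GaloisField.finrank p hd.ne')

variable (p)

/-- Monic polynomials of degree `n` with a simple root and an irreducible cofactor. -/
noncomputable def rootSetType (n : ℕ) : Finset (Fin n → ZMod p) := by
  classical exact Finset.univ.filter fun a => ∃ (c : ZMod p) (h : (ZMod p)[X]),
    Irreducible h ∧ h.natDegree = n - 1 ∧ monicOf a = (X - C c) * h

/-- Monic polynomials of degree `n` with an irreducible quadratic factor, the other roots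
distinct and in `𝔽_p`. -/
noncomputable def swapType (n : ℕ) : Finset (Fin n → ZMod p) := by
  classical exact Finset.univ.filter fun a => ∃ (S : Finset (ZMod p)) (q : (ZMod p)[X]),
    Irreducible q ∧ q.natDegree = 2 ∧ S.card = n - 2 ∧ monicOf a = q * ∏ c ∈ S, (X - C c)

variable {p}

lemma mem_rootSetType {n : ℕ} {a : Fin n → ZMod p} : a ∈ rootSetType p n ↔
    ∃ (c : ZMod p) (h : (ZMod p)[X]),
      Irreducible h ∧ h.natDegree = n - 1 ∧ monicOf a = (X - C c) * h := by
  simp [rootSetType]

lemma mem_swapType {n : ℕ} {a : Fin n → ZMod p} : a ∈ swapType p n ↔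
    ∃ (S : Finset (ZMod p)) (q : (ZMod p)[X]),
      Irreducible q ∧ q.natDegree = 2 ∧ S.card = n - 2 ∧ monicOf a = q * ∏ c ∈ S, (X - C c) := by
  simp [swapType]

lemma no_root_of_irreducible {q : (ZMod p)[X]} (hq : Irreducible q) (hd : 2 ≤ q.natDegree)
    (c : ZMod p) : q.eval c ≠ 0 := fun h => by
  have h1 := degree_eq_one_of_irreducible_of_root hq h
  have h2 : q.natDegree = 1 := natDegree_eq_of_degree_eq_some h1
  omega

lemma pow_le_card_rootSetType (hp3 : 3 ≤ p) {n : ℕ} (hn : 3 ≤ n) :
    p ^ n ≤ 2 * n * (rootSetType p n).card := by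
  classical
  have hle : p * (irrSet p (n - 1)).card ≤ (rootSetType p n).card := by
    have hcard : ((Finset.univ : Finset (ZMod p)) ×ˢ irrSet p (n - 1)).card
        = p * (irrSet p (n - 1)).card := by
      rw [Finset.card_product, Finset.card_univ, ZMod.card]
    rw [← hcard]
    refine card_le_of_monic _
      (fun x : ZMod p × (Fin (n - 1) → ZMod p) => (X - C x.1) * monicOf x.2) _
      (fun x _ => ⟨(monic_X_sub_C _).mul (monicOf_monic _), ?_⟩)
      (fun x hx a ha => mem_rootSetType.2 ⟨x.1, monicOf x.2,
        mem_irrSet.1 (Finset.mem_product.1 hx).2, natDegree_monicOf _, ha⟩) ?_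
    · rw [(monic_X_sub_C _).natDegree_mul (monicOf_monic _), natDegree_X_sub_C, natDegree_monicOf]
      omega
    intro x hx y hy h
    replace h : (X - C x.1) * monicOf x.2 = (X - C y.1) * monicOf y.2 := h
    have hy2 := mem_irrSet.1 (Finset.mem_product.1 hy).2
    have h1 : x.1 = y.1 := by
      have h' := congrArg (eval x.1) h
      simp only [eval_mul, eval_sub, eval_X, eval_C, sub_self, zero_mul] at h'
      exact sub_eq_zero.1 ((mul_eq_zero.1 h'.symm).resolve_right
        (no_root_of_irreducible hy2 (by rw [natDegree_monicOf]; omega) _))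
    refine Prod.ext h1 (monicOf_injective (mul_left_cancel₀ (X_sub_C_ne_zero x.1) ?_))
    rw [h, h1]
  have h := pow_le_card_irrSet (p := p) hp3 (show 0 < n - 1 by omega)
  have hpn : p ^ n = p * p ^ (n - 1) := by rw [← pow_succ']; congr 1; omega
  calc p ^ n = p * p ^ (n - 1) := hpn
    _ ≤ p * (2 * (n - 1) * (irrSet p (n - 1)).card) := Nat.mul_le_mul_left p h
    _ = 2 * (n - 1) * (p * (irrSet p (n - 1)).card) := by ring
    _ ≤ 2 * n * (rootSetType p n).card := Nat.mul_le_mul (by omega) hle

lemma pow_le_card_swapType (hp3 : 3 ≤ p) {n : ℕ} (hn : 2 ≤ n) (hpn : 2 * n ≤ p) :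
    p ^ n ≤ 4 * 2 ^ n * n ! * (swapType p n).card := by
  classical
  set m := n - 2 with hm
  have hle : (irrSet p 2).card * p.choose m ≤ (swapType p n).card := by
    have hcard : ((irrSet p 2) ×ˢ (Finset.univ : Finset (ZMod p)).powersetCard m).card
        = (irrSet p 2).card * p.choose m := by
      rw [Finset.card_product, Finset.card_powersetCard, Finset.card_univ, ZMod.card]
    rw [← hcard]
    refine card_le_of_monic _
      (fun x : (Fin 2 → ZMod p) × Finset (ZMod p) => monicOf x.1 * ∏ c ∈ x.2, (X - C c)) _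
      (fun x hx => ⟨(monicOf_monic _).mul (monic_prod_of_monic _ _ fun _ _ => monic_X_sub_C _), ?_⟩)
      (fun x hx a ha => mem_swapType.2 ⟨x.2, monicOf x.1, mem_irrSet.1 (Finset.mem_product.1 hx).1,
        natDegree_monicOf _, (Finset.mem_powersetCard.1 (Finset.mem_product.1 hx).2).2, ha⟩) ?_
    · rw [(monicOf_monic _).natDegree_mul (monic_prod_of_monic _ _ fun _ _ => monic_X_sub_C _),
        natDegree_monicOf, natDegree_prod_of_monic _ _ fun _ _ => monic_X_sub_C _]
      simp only [natDegree_X_sub_C, Finset.sum_const, smul_eq_mul, mul_one]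
      rw [(Finset.mem_powersetCard.1 (Finset.mem_product.1 hx).2).2]
      omega
    intro x hx y hy h
    replace h : monicOf x.1 * ∏ c ∈ x.2, (X - C c) = monicOf y.1 * ∏ c ∈ y.2, (X - C c) := h
    have hmem : ∀ (q : Fin 2 → ZMod p) (S : Finset (ZMod p)), q ∈ irrSet p 2 → ∀ c,
        (monicOf q * ∏ c ∈ S, (X - C c)).eval c = 0 ↔ c ∈ S := by
      intro q S hq c
      rw [eval_mul, mul_eq_zero, or_iff_right (no_root_of_irreducible (mem_irrSet.1 hq)
        (natDegree_monicOf q).ge c), eval_prod, Finset.prod_eq_zero_iff]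
      simp [sub_eq_zero]
    have h2 : x.2 = y.2 := Finset.ext fun c => by
      rw [← hmem x.1 x.2 (Finset.mem_product.1 hx).1 c, h,
        hmem y.1 y.2 (Finset.mem_product.1 hy).1 c]
    refine Prod.ext (monicOf_injective (mul_right_cancel₀
      (Finset.prod_ne_zero_iff.2 fun c _ => X_sub_C_ne_zero c : ∏ c ∈ x.2, (X - C c) ≠ 0) ?_)) h2
    rw [h, h2]
  have h1 : p ^ 2 ≤ 4 * (irrSet p 2).card := pow_le_card_irrSet (p := p) hp3 two_pos
  have h2 : p ^ m ≤ 2 ^ m * (m ! * p.choose m) := by
    rw [← Nat.descFactorial_eq_factorial_mul_choose]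
    refine le_trans ?_ (Nat.mul_le_mul_left _ (Nat.pow_sub_le_descFactorial p m))
    rw [← mul_pow]
    exact Nat.pow_le_pow_left (by omega) m
  calc p ^ n = p ^ 2 * p ^ m := by rw [← pow_add]; congr 1; omega
    _ ≤ 4 * (irrSet p 2).card * (2 ^ m * (m ! * p.choose m)) := Nat.mul_le_mul h1 h2
    _ = 4 * 2 ^ m * m ! * ((irrSet p 2).card * p.choose m) := by ring
    _ ≤ 4 * 2 ^ n * n ! * (swapType p n).card := by
      gcongr <;> omega

end Fermat.Agent.VanDerWaerden
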