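import Mathlib
import Fermat.Agent.VanDerWaerden.Dedekind
import Fermat.Agent.VanDerWaerden.Counting

/-!
# Three factorisation types force the symmetric group
-/

namespace Fermat.Agent.VanDerWaerden

open Polynomial
open scoped Polynomial

/-- A group of permutations which is transitive, contains an element fixing one point and
permuting the others cyclically, and contains a transposition, is the symmetric group. -/
lemma surjective_of_swap_of_cycle {G α : Type*} [Group G] [Finite α] [DecidableEq α]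
    (ψ : G →* Equiv.Perm α) (htrans : ∀ x y, ∃ g, ψ g x = y) (σ : G) (z : α) (hz : ψ σ z = z)
    (hcyc : ∀ b c, b ≠ z → c ≠ z → ∃ k : ℕ, (ψ σ ^ k) b = c) (τ : G) (u v : α) (huv : u ≠ v)
    (hτ : ψ τ = Equiv.swap u v) : Function.Surjective ψ := by
  rw [← MonoidHom.range_eq_top, eq_top_iff, ← Equiv.Perm.closure_isSwap, Subgroup.closure_le]
  rintro _ ⟨a, b, hab, rfl⟩
  obtain ⟨g₁, hg₁⟩ := htrans u a
  obtain ⟨g₀, hg₀⟩ := htrans z a
  set g := ψ g₀
  set w := ψ g₁ v
  have hwa : w ≠ a := fun h => huv ((ψ g₁).injective (hg₁.trans h.symm))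
  obtain ⟨k, hk⟩ := hcyc (g⁻¹ w) (g⁻¹ b)
    (fun h => hwa (by rw [← hg₀, ← h]; exact (Equiv.apply_symm_apply g w).symm))
    (fun h => hab (by rw [← hg₀, ← h]; exact Equiv.apply_symm_apply g b))
  have hfix : ∀ k : ℕ, (ψ σ ^ k) z = z := fun k => by
    induction k with
    | zero => rfl
    | succ k ih => rw [pow_succ', Equiv.Perm.mul_apply, ih, hz]
  set γ := g * ψ σ ^ k * g⁻¹
  have hγa : γ a = a := by
    simp only [γ, Equiv.Perm.mul_apply]
    rw [show g⁻¹ a = z from by rw [← hg₀]; exact Equiv.symm_apply_apply g z, hfix k]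
    exact hg₀
  refine ⟨(g₀ * σ ^ k * g₀⁻¹ * g₁) * τ * (g₀ * σ ^ k * g₀⁻¹ * g₁)⁻¹, ?_⟩
  rw [map_mul, map_mul, map_inv, hτ, ← Equiv.swap_apply_apply]
  simp only [map_mul, map_pow, map_inv]
  congr 1
  · change γ (ψ g₁ u) = a
    rw [hg₁, hγa]
  · show g ((ψ σ ^ k) (g⁻¹ w)) = b
    rw [hk]
    exact Equiv.apply_symm_apply g b

variable {n : ℕ} {p : ℕ} [hp : Fact p.Prime]

lemma separable_rootSetType {a : Fin n → ZMod p} (hn : 3 ≤ n) (ha : a ∈ rootSetType p n) :
    (monicOf a).Separable := by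
  obtain ⟨c, h, hh, hdeg, heq⟩ := mem_rootSetType.1 ha
  rw [heq]
  refine (separable_X_sub_C (x := c)).mul (PerfectField.separable_of_irreducible hh) ?_
  refine (irreducible_X_sub_C c).coprime_iff_not_dvd.2 fun hdvd => ?_
  exact no_root_of_irreducible hh (by omega) c (dvd_iff_isRoot.1 hdvd)

lemma separable_swapType {a : Fin n → ZMod p} (ha : a ∈ swapType p n) :
    (monicOf a).Separable := by
  obtain ⟨S, q, hq, hdeg, -, heq⟩ := mem_swapType.1 ha
  rw [heq]
  refine (PerfectField.separable_of_irreducible hq).mul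
    (separable_prod_X_sub_C_iff'.2 fun _ _ _ _ h => h) (IsCoprime.prod_right fun c _ => ?_)
  refine ((irreducible_X_sub_C c).coprime_iff_not_dvd.2 fun hdvd => ?_).symm
  exact no_root_of_irreducible hq hdeg.ge c (dvd_iff_isRoot.1 hdvd)

section Group

variable {L : Type} [Field L] [Algebra ℚ L] (f : ℤ[X])

/-- The automorphisms acting on the roots. -/
noncomputable def rootsAction :
    (L ≃ₐ[ℚ] L) →* Equiv.Perm ((f.map (Int.castRingHom ℚ)).rootSet L) where
  toFun σ :=
    { toFun := fun x => ⟨σ x, (f.map (Int.castRingHom ℚ)).rootSet_mapsTo σ.toAlgHom x.2⟩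
      invFun := fun x => ⟨σ.symm x, (f.map (Int.castRingHom ℚ)).rootSet_mapsTo σ.symm.toAlgHom x.2⟩
      left_inv := fun x => Subtype.ext (σ.symm_apply_apply _)
      right_inv := fun x => Subtype.ext (σ.apply_symm_apply _) }
  map_one' := by ext x; rfl
  map_mul' σ τ := by ext x; rfl

@[simp] lemma rootsAction_apply (σ : L ≃ₐ[ℚ] L) (x : (f.map (Int.castRingHom ℚ)).rootSet L) :
    ((rootsAction f σ x : _) : L) = σ x := rfl

variable [IsSplittingField ℚ L (f.map (Int.castRingHom ℚ))]

lemma rootsAction_injective : Function.Injective (rootsAction (L := L) f) := by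
  intro σ τ h
  refine AlgEquiv.coe_toAlgHom_injective
    (AlgHom.ext_of_adjoin_eq_top
      (IsSplittingField.adjoin_rootSet L (f.map (Int.castRingHom ℚ))) fun x hx => ?_)
  exact congrArg Subtype.val (Equiv.congr_fun h ⟨x, hx⟩)

/-- An element with the cycle type of `linear × irreducible`. -/
lemma exists_fixed_cycle_of_rootSetType (hf : f.Monic) {a : Fin n → ZMod p} (hn : 3 ≤ n)
    (ha : a ∈ rootSetType p n) (hfa : f.map (Int.castRingHom (ZMod p)) = monicOf a) :
    ∃ (σ : L ≃ₐ[ℚ] L) (z : (f.map (Int.castRingHom ℚ)).rootSet L),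
      rootsAction f σ z = z ∧ ∀ b c, b ≠ z → c ≠ z → ∃ k : ℕ, (rootsAction f σ ^ k) b = c := by
  obtain ⟨σ, k, _, _, _, e, -, he, hσ⟩ :=
    exists_frobenius (L := L) hf (hfa ▸ separable_rootSetType hn ha)
  obtain ⟨c, h, hh, -, heq⟩ := mem_rootSetType.1 ha
  have hne : monicOf a ≠ 0 := (monicOf_monic a).ne_zero
  have hcmem : algebraMap (ZMod p) k c ∈ (f.map (Int.castRingHom (ZMod p))).rootSet k := by
    rw [hfa, mem_rootSet]
    exact ⟨hne, by rw [heq, map_mul, map_sub, aeval_X, aeval_C, sub_self, zero_mul]⟩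
  obtain ⟨z, hz, hzc⟩ := he.surjOn hcmem
  have hiter : ∀ (i : ℕ) (b : (f.map (Int.castRingHom ℚ)).rootSet L),
      e ((rootsAction f σ ^ i) b : _) = e b ^ p ^ i := by
    intro i b
    induction i with
    | zero => simp
    | succ i ih =>
      rw [pow_succ', Equiv.Perm.mul_apply, rootsAction_apply, hσ _ ((rootsAction f σ ^ i) b).2, ih,
        ← pow_mul, pow_succ]
  refine ⟨σ, ⟨z, hz⟩, Subtype.ext (he.injOn (rootsAction f σ ⟨z, hz⟩).2 hz ?_), fun b d hb hd => ?_⟩
  · rw [rootsAction_apply, hσ z hz, hzc, ← map_pow, ZMod.pow_card]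
  have hroot : ∀ d : (f.map (Int.castRingHom ℚ)).rootSet L, d ≠ ⟨z, hz⟩ → aeval (e d) h = 0 := by
    intro d hd
    have h1 := (mem_rootSet.1 (he.mapsTo d.2)).2
    rw [hfa, heq, map_mul, mul_eq_zero, map_sub, aeval_X, aeval_C, sub_eq_zero] at h1
    exact h1.resolve_left fun h2 => hd (Subtype.ext (he.injOn d.2 hz (h2.trans hzc.symm)))
  obtain ⟨i, hi⟩ := exists_pow_eq_of_irreducible hh (hroot b hb) (hroot d hd)
  exact ⟨i, Subtype.ext (he.injOn ((rootsAction f σ ^ i) b).2 d.2 ((hiter i b).trans hi))⟩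

/-- An element with the cycle type of `quadratic × distinct linear`. -/
lemma exists_swap_of_swapType [DecidableEq ((f.map (Int.castRingHom ℚ)).rootSet L)] (hf : f.Monic)
    {a : Fin n → ZMod p} (ha : a ∈ swapType p n)
    (hfa : f.map (Int.castRingHom (ZMod p)) = monicOf a) :
    ∃ (σ : L ≃ₐ[ℚ] L) (u v : (f.map (Int.castRingHom ℚ)).rootSet L),
      u ≠ v ∧ rootsAction f σ = Equiv.swap u v := by
  obtain ⟨σ, k, _, _, _, e, hsplit, he, hσ⟩ :=
    exists_frobenius (L := L) hf (hfa ▸ separable_swapType ha)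
  obtain ⟨S, q, hq, hqdeg, -, heq⟩ := mem_swapType.1 ha
  have hne : monicOf a ≠ 0 := (monicOf_monic a).ne_zero
  rw [hfa] at he hsplit
  have hqdvd : q ∣ monicOf a := heq ▸ dvd_mul_right q _
  obtain ⟨x, hx⟩ := (Splits.of_dvd hsplit (map_monic_ne_zero (monicOf_monic a))
    (Polynomial.map_dvd (algebraMap (ZMod p) k) hqdvd)).exists_eval_eq_zero (by
      rw [degree_map, degree_eq_natDegree hq.ne_zero, hqdeg]
      decide)
  rw [eval_map_algebraMap] at hx
  have hxp : aeval (x ^ p) q = 0 := by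
    rw [← expand_aeval, ZMod.expand_card, map_pow, hx, zero_pow hp.out.ne_zero]
  have hbot : ∀ {y : k}, aeval y q = 0 → ∀ c : ZMod p, y ≠ algebraMap _ _ c := by
    intro y hy c hc
    rw [hc, aeval_algebraMap_apply_eq_algebraMap_eval,
      map_eq_zero_iff _ (algebraMap (ZMod p) k).injective] at hy
    exact no_root_of_irreducible hq hqdeg.ge c hy
  have hxne : x ^ p ≠ x := by
    intro h
    obtain ⟨c, hc⟩ : x ∈ (⊥ : IntermediateField (ZMod p) k) := by
      rw [← IntermediateField.adjoin_simple_eq_bot_iff, ← IntermediateField.finrank_eq_one_iff,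
        IntermediateField.adjoin.finrank (IsIntegral.of_finite _ _)]
      exfalso
      have hall : ∀ i, x ^ p ^ i = x := fun i => by
        induction i with
        | zero => simp
        | succ i ih => rw [pow_succ, pow_mul, ih, h]
      have hcard : ((q.map (algebraMap (ZMod p) k)).roots).card = 2 := by
        rw [← (Splits.of_dvd hsplit (map_monic_ne_zero (monicOf_monic a))
          (Polynomial.map_dvd (algebraMap (ZMod p) k) hqdvd)).natDegree_eq_card_roots,
          natDegree_map, hqdeg]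
      have hnd : (q.map (algebraMap (ZMod p) k)).roots.Nodup :=
        nodup_roots (PerfectField.separable_of_irreducible hq).map
      have hsub : (q.map (algebraMap (ZMod p) k)).roots ≤ {x} := by
        refine (Multiset.le_iff_subset hnd).2 fun y hy => ?_
        rw [mem_roots (Polynomial.map_ne_zero hq.ne_zero), IsRoot, eval_map_algebraMap] at hy
        obtain ⟨i, hi⟩ := exists_pow_eq_of_irreducible hq hx hy
        rw [Multiset.mem_singleton, ← hi, hall i]
      have := Multiset.card_le_card hsub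
      rw [hcard, Multiset.card_singleton] at this
      omega
    exact hbot hx c hc.symm
  have hmem : ∀ {y : k}, aeval y q = 0 → y ∈ (monicOf a).rootSet k := fun {y} hy =>
    mem_rootSet.2 ⟨hne, aeval_eq_zero_of_dvd_aeval_eq_zero hqdvd hy⟩
  obtain ⟨u, hu, hux⟩ := he.surjOn (hmem hx)
  obtain ⟨v, hv, hvx⟩ := he.surjOn (hmem hxp)
  have huv : (⟨u, hu⟩ : (f.map (Int.castRingHom ℚ)).rootSet L) ≠ ⟨v, hv⟩ := fun h =>
    hxne (by rw [← hvx, ← show u = v from congrArg Subtype.val h, hux])
  -- the roots of `q` are `x` and `x ^ p`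
  have hroots : ∀ y, aeval y q = 0 → y = x ∨ y = x ^ p := by
    intro y hy
    by_contra hne'
    rw [not_or] at hne'
    classical
    have h3 : ({x, x ^ p, y} : Finset k).card ≤ (q.map (algebraMap (ZMod p) k)).natDegree :=
      card_le_degree_of_subset_roots fun r hr => by
        rw [Finset.mem_val, Finset.mem_insert, Finset.mem_insert, Finset.mem_singleton] at hr
        refine (mem_roots (Polynomial.map_ne_zero hq.ne_zero)).2 ?_
        rw [IsRoot, eval_map_algebraMap]
        rcases hr with rfl | rfl | rfl <;> assumption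
    rw [natDegree_map, hqdeg, Finset.card_eq_three.2
      ⟨x, x ^ p, y, Ne.symm hxne, Ne.symm hne'.1, Ne.symm hne'.2, rfl⟩] at h3
    omega
  refine ⟨σ, ⟨u, hu⟩, ⟨v, hv⟩, huv, Equiv.ext fun b => Subtype.ext
    (he.injOn (rootsAction f σ b).2 (Equiv.swap _ _ b).2 ?_)⟩
  rw [rootsAction_apply, hσ b b.2]
  by_cases hbu : b = ⟨u, hu⟩
  · subst hbu
    rw [Equiv.swap_apply_left, hux, hvx]
  by_cases hbv : b = ⟨v, hv⟩
  · subst hbv
    rw [Equiv.swap_apply_right, hvx, hux]
    rcases hroots (x ^ p ^ 2) (by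
      rw [pow_two, pow_mul, ← expand_aeval, ZMod.expand_card, map_pow, hxp,
        zero_pow hp.out.ne_zero]) with h | h
    · rw [← pow_mul, ← pow_two]
      exact h
    · exfalso
      have : Finite k := Module.finite_of_finite (ZMod p)
      have : CharP k p := (Algebra.charP_iff (ZMod p) k p).1 (ZMod.charP p)
      rw [pow_two, pow_mul] at h
      exact hxne (frobenius_inj k p h)
  rw [Equiv.swap_apply_of_ne_of_ne hbu hbv]
  have h1 := (mem_rootSet.1 (he.mapsTo b.2)).2
  rw [heq, map_mul, mul_eq_zero] at h1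
  rcases h1 with h1 | h1
  · rcases hroots _ h1 with h2 | h2
    · exact absurd (Subtype.ext (he.injOn b.2 hu (h2.trans hux.symm))) hbu
    · exact absurd (Subtype.ext (he.injOn b.2 hv (h2.trans hvx.symm))) hbv
  · simp only [map_prod, Finset.prod_eq_zero_iff, map_sub, aeval_X, aeval_C, sub_eq_zero] at h1
    obtain ⟨c, -, hc⟩ := h1
    rw [hc, ← map_pow, ZMod.pow_card]

/-- **The criterion**: irreducible modulo one prime, `linear × irreducible` modulo a second and
`quadratic × distinct linear` modulo a third. -/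
theorem nonempty_perm_of_types {a : Fin n → ℤ} (hn : 2 ≤ n) {p₁ p₂ p₃ : ℕ}
    [Fact p₁.Prime] [Fact p₂.Prime] [Fact p₃.Prime]
    [IsSplittingField ℚ L ((monicOf a).map (Int.castRingHom ℚ))]
    (h₁ : (fun i => (a i : ZMod p₁)) ∈ irrSet p₁ n)
    (h₂ : 3 ≤ n → (fun i => (a i : ZMod p₂)) ∈ rootSetType p₂ n)
    (h₃ : (fun i => (a i : ZMod p₃)) ∈ swapType p₃ n) :
    Irreducible ((monicOf a).map (Int.castRingHom ℚ)) ∧
      Nonempty ((L ≃ₐ[ℚ] L) ≃* Equiv.Perm (Fin n)) := by
  classical
  have hf : (monicOf a).Monic := monicOf_monic a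
  have hmap : ∀ q : ℕ, (monicOf a).map (Int.castRingHom (ZMod q))
      = monicOf fun i => (a i : ZMod q) := fun q => map_monicOf _ a
  have hirrZ : Irreducible (monicOf a) :=
    hf.irreducible_of_irreducible_map (Int.castRingHom (ZMod p₁)) _
      (by rw [hmap]; exact mem_irrSet.1 h₁)
  have hirr : Irreducible ((monicOf a).map (Int.castRingHom ℚ)) :=
    hf.irreducible_iff_irreducible_map_fraction_map.1 hirrZ
  refine ⟨hirr, ?_⟩
  have hcard : Fintype.card (((monicOf a).map (Int.castRingHom ℚ)).rootSet L) = n := by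
    rw [card_rootSet_eq_natDegree hirr.separable (IsSplittingField.splits L _),
      hf.natDegree_map, natDegree_monicOf]
  have htrans : ∀ x y, ∃ g, rootsAction (L := L) (monicOf a) g x = y := by
    intro x y
    have : Normal ℚ L := Normal.of_isSplittingField ((monicOf a).map (Int.castRingHom ℚ))
    have hx := (mem_rootSet.1 x.2).2
    have hy := (mem_rootSet.1 y.2).2
    have hmin : aeval (y : L) (minpoly ℚ (x : L)) = 0 := by
      rw [← minpoly.eq_of_irreducible hirr hx, map_mul, hy, zero_mul]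
    obtain ⟨σ, hσ⟩ := minpoly.exists_algEquiv_of_root' ⟨_, hirr.ne_zero, hx⟩ hmin
    exact ⟨σ, Subtype.ext hσ⟩
  obtain ⟨τ, u, v, huv, hτ⟩ := exists_swap_of_swapType (L := L) (monicOf a) hf h₃ (hmap p₃)
  obtain ⟨σ, z, hz, hcyc⟩ : ∃ (σ : L ≃ₐ[ℚ] L) (z : ((monicOf a).map (Int.castRingHom ℚ)).rootSet L),
      rootsAction (monicOf a) σ z = z ∧
        ∀ b c, b ≠ z → c ≠ z → ∃ k : ℕ, (rootsAction (monicOf a) σ ^ k) b = c := by
    rcases hn.eq_or_lt with rfl | hn3
    · refine ⟨1, u, by simp, fun b c hb hc => ⟨0, ?_⟩⟩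
      by_contra hne
      have : ({u, b, c} : Finset _).card ≤ 2 := (Finset.card_le_univ _).trans_eq hcard
      rw [Finset.card_eq_three.2 ⟨u, b, c, Ne.symm hb, Ne.symm hc, by simpa using hne, rfl⟩] at this
      omega
    · exact exists_fixed_cycle_of_rootSetType (monicOf a) hf hn3 (h₂ hn3) (hmap p₂)
  exact ⟨(MulEquiv.ofBijective (rootsAction (monicOf a)) ⟨rootsAction_injective (monicOf a),
    surjective_of_swap_of_cycle _ htrans σ z hz hcyc τ u v huv hτ⟩).trans
      (Fintype.equivFinOfCardEq hcard).permCongrHom⟩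

end Group

end Fermat.Agent.VanDerWaerden
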