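import Mathlib
import Fermat.Agent.VanDerWaerden.Criterion

/-!
# Van der Waerden: almost all monic integral polynomials have Galois group `Sₙ`
-/

namespace Fermat.Agent.VanDerWaerden

open Polynomial Filter Topology
open scoped Polynomial Nat

/-- The coefficient vectors in the box `[-N, N]^n`. -/
noncomputable def box (n N : ℕ) : Finset (Fin n → ℤ) :=
  Fintype.piFinset fun _ => Finset.Icc (-(N : ℤ)) N

lemma mem_box {n N : ℕ} {a : Fin n → ℤ} : a ∈ box n N ↔ ∀ i, |a i| ≤ N := by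
  simp [box, abs_le]

lemma card_box (n N : ℕ) : (box n N).card = (2 * N + 1) ^ n := by
  simp [box, Fintype.card_piFinset, Int.card_Icc]
  congr 1
  omega

/-- A vector outside the good residues at every prime of `P`. -/
def AvoidsAll {n : ℕ} (good : ∀ p, Finset (Fin n → ZMod p)) (P : Finset ℕ) (a : Fin n → ℤ) :
    Prop :=
  ∀ p ∈ P, (fun i => (a i : ZMod p)) ∉ good p

/-- A sieve by congruences modulo the primes of `P`. -/
lemma card_avoidsAll_le {n : ℕ} (good : ∀ p, Finset (Fin n → ZMod p)) {P : Finset ℕ}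
    (hP : ∀ p ∈ P, p.Prime) {C : ℕ} (hC : 0 < C)
    (hgood : ∀ p ∈ P, p ^ n ≤ C * (good p).card) {N : ℕ} (hN : ∏ p ∈ P, p ≤ N) (hN0 : 0 < N)
    [DecidablePred (AvoidsAll good P)] :
    (((box n N).filter (AvoidsAll good P)).card : ℝ)
      ≤ 2 ^ n * (2 * (N : ℝ) + 1) ^ n * (1 - 1 / (C : ℝ)) ^ P.card := by
  classical
  set M := ∏ p ∈ P, p with hMdef
  have hM : 0 < M := Finset.prod_pos fun p hp => (hP p hp).pos
  have : ∀ p : P, Fact (p : ℕ).Prime := fun p => ⟨hP p p.2⟩
  let red : (Fin n → ℤ) → (∀ p : P, Fin n → ZMod (p : ℕ)) := fun a p i => (a i : ZMod (p : ℕ))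
  set s := (box n N).filter (AvoidsAll good P)
  have hfib : ∀ b ∈ s.image red, (s.filter fun a => red a = b).card ≤ (2 * N / M + 1) ^ n := by
    intro b _
    refine (Finset.card_le_card_of_injOn (t := Fintype.piFinset fun _ : Fin n =>
      Finset.range (2 * N / M + 1)) (fun (a : Fin n → ℤ) i => (a i + (N : ℤ)).toNat / M)
      (fun a ha => ?_) ?_).trans_eq
      (by simp [Fintype.card_piFinset])
    · rw [Finset.mem_coe, Fintype.mem_piFinset]
      intro i
      rw [Finset.mem_range, Nat.lt_succ_iff]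
      refine Nat.div_le_div_right ?_
      have := abs_le.1 (mem_box.1 (Finset.mem_filter.1 (Finset.mem_filter.1 ha).1).1 i)
      omega
    · intro a ha a' ha' h
      funext i
      have hai := abs_le.1 (mem_box.1 (Finset.mem_filter.1 (Finset.mem_filter.1 ha).1).1 i)
      have hai' := abs_le.1 (mem_box.1 (Finset.mem_filter.1 (Finset.mem_filter.1 ha').1).1 i)
      have hdvd : (M : ℤ) ∣ a i - a' i := by
        rw [Int.natCast_dvd]
        refine Finset.prod_primes_dvd _ (fun p hp => (hP p hp).prime) fun p hp => ?_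
        rw [← Int.natCast_dvd, ← ZMod.intCast_zmod_eq_zero_iff_dvd, Int.cast_sub, sub_eq_zero]
        exact congrFun (congrFun
          ((Finset.mem_filter.1 ha).2.trans (Finset.mem_filter.1 ha').2.symm) ⟨p, hp⟩) i
      have h' : (a i + N).toNat / M = (a' i + N).toNat / M := congrFun h i
      have hmod : (a i + N).toNat % M = (a' i + N).toNat % M := by
        apply Nat.ModEq.eq_of_lt_of_lt ?_ (Nat.mod_lt _ hM) (Nat.mod_lt _ hM)
        rw [Nat.ModEq, Nat.mod_mod, Nat.mod_mod]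
        apply (Nat.modEq_iff_dvd.2 ?_ : (a i + N).toNat ≡ (a' i + N).toNat [MOD M])
        rw [Int.toNat_of_nonneg (by omega), Int.toNat_of_nonneg (by omega)]
        rw [show a' i + ↑N - (a i + ↑N) = -(a i - a' i) by ring]
        exact dvd_neg.2 hdvd
      have h1 := Nat.div_add_mod (a i + N).toNat M
      have h2 := Nat.div_add_mod (a' i + N).toNat M
      rw [h', hmod] at h1
      omega
  have himage : s.image red ⊆ Fintype.piFinset fun p : P => (good p)ᶜ := by
    intro b hb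
    obtain ⟨a, ha, rfl⟩ := Finset.mem_image.1 hb
    rw [Fintype.mem_piFinset]
    exact fun p => Finset.mem_compl.2 ((Finset.mem_filter.1 ha).2 p p.2)
  have hcount := (Finset.card_le_mul_card_image s _ hfib).trans
    (Nat.mul_le_mul_left _ (Finset.card_le_card himage))
  rw [Fintype.card_piFinset] at hcount
  have hR : (s.card : ℝ) ≤ ((2 * N / M + 1 : ℕ) : ℝ) ^ n * ∏ p : P, ((good p)ᶜ.card : ℝ) :=
    mod_cast hcount
  have hC' : 0 ≤ 1 - 1 / (C : ℝ) :=
    sub_nonneg.2 ((div_le_one (by positivity)).2 (Nat.one_le_cast.2 hC))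
  have hp : ∀ p : P, ((good p)ᶜ.card : ℝ) ≤ (1 - 1 / (C : ℝ)) * ((p : ℕ) : ℝ) ^ n := by
    intro p
    rw [Finset.card_compl, Fintype.card_fun, ZMod.card, Fintype.card_fin, Nat.cast_sub (by
      refine (Finset.card_le_univ _).trans_eq ?_
      rw [Fintype.card_fun, ZMod.card, Fintype.card_fin]), Nat.cast_pow, sub_mul, one_mul,
      one_div_mul_eq_div, sub_le_sub_iff_left, div_le_iff₀ (by positivity), mul_comm]
    exact_mod_cast hgood p p.2
  have hprod : ∏ p : P, ((good p)ᶜ.card : ℝ) ≤ (1 - 1 / (C : ℝ)) ^ P.card * (M : ℝ) ^ n := by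
    refine (Finset.prod_le_prod (fun p _ => Nat.cast_nonneg _) fun p _ => hp p).trans_eq ?_
    rw [Finset.prod_mul_distrib, Finset.prod_const, Finset.card_univ, Fintype.card_coe,
      Finset.prod_pow, Finset.prod_coe_sort P fun p : ℕ => (p : ℝ), hMdef]
    push_cast
    rfl
  refine hR.trans ((mul_le_mul_of_nonneg_left hprod (by positivity)).trans ?_)
  rw [mul_left_comm, mul_comm ((1 - 1 / (C : ℝ)) ^ P.card), ← mul_pow, ← mul_pow]
  refine mul_le_mul_of_nonneg_right (pow_le_pow_left₀ (by positivity) ?_ _) (pow_nonneg hC' _)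
  have h1 : ((2 * N / M + 1 : ℕ) : ℝ) * M = ((2 * N / M * M : ℕ) : ℝ) + M := by push_cast; ring
  have h2 : ((2 * N / M * M : ℕ) : ℝ) ≤ ((2 * N : ℕ) : ℝ) :=
    Nat.cast_le.2 (Nat.div_mul_le_self _ _)
  have h3 : (M : ℝ) ≤ N := Nat.cast_le.2 hN
  push_cast at h1 h2 ⊢
  linarith

/-- Sets of coefficient vectors with a good residue at some prime. -/
theorem tendsto_avoidsAll {n : ℕ} (good : ∀ p, Finset (Fin n → ZMod p)) {C p₀ : ℕ}
    (hC : 0 < C) (hgood : ∀ p, p.Prime → p₀ ≤ p → p ^ n ≤ C * (good p).card) :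
    Tendsto (fun N : ℕ =>
      ({a : Fin n → ℤ | (∀ i, |a i| ≤ N) ∧
        ∀ p, p.Prime → p₀ ≤ p → (fun i => (a i : ZMod p)) ∉ good p}.ncard : ℝ) / (2 * N + 1) ^ n)
      atTop (𝓝 0) := by
  classical
  refine tendsto_order.2 ⟨fun b hb => Eventually.of_forall fun N => hb.trans_le (by positivity),
    fun ε hε => ?_⟩
  have hlim : Tendsto (fun k : ℕ => (2 : ℝ) ^ n * (1 - 1 / (C : ℝ)) ^ k) atTop (𝓝 0) := by
    simpa using (tendsto_pow_atTop_nhds_zero_of_lt_one
      (sub_nonneg.2 ((div_le_one (by positivity)).2 (Nat.one_le_cast.2 hC)))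
      (sub_lt_self 1 (by positivity))).const_mul ((2 : ℝ) ^ n)
  obtain ⟨k, hk⟩ := ((tendsto_order.1 hlim).2 ε hε).exists
  have hinf : {p : ℕ | p.Prime ∧ p₀ ≤ p}.Infinite :=
    (Nat.infinite_setOfPred_prime.sdiff (Set.finite_Iio p₀)).mono fun p hp =>
      ⟨hp.1, not_lt.1 hp.2⟩
  obtain ⟨P, hP, hPcard⟩ := hinf.exists_subset_card_eq k
  filter_upwards [eventually_ge_atTop (max 1 (∏ p ∈ P, p))] with N hN
  have hsub : {a : Fin n → ℤ | (∀ i, |a i| ≤ N) ∧
      ∀ p, p.Prime → p₀ ≤ p → (fun i => (a i : ZMod p)) ∉ good p}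
      ⊆ ↑((box n N).filter (AvoidsAll good P)) := fun a ⟨h1, h2⟩ =>
    Finset.mem_filter.2 ⟨mem_box.2 h1, fun p hp => h2 p (hP hp).1 (hP hp).2⟩
  have hle := Set.ncard_le_ncard hsub (Finset.finite_toSet _)
  rw [Set.ncard_coe_finset] at hle
  rw [div_lt_iff₀ (by positivity)]
  refine lt_of_le_of_lt ((Nat.cast_le.2 hle).trans (card_avoidsAll_le good
    (fun p hp => (hP hp).1) hC (fun p hp => hgood p (hP hp).1 (hP hp).2)
    (le_of_max_le_right hN) (le_of_max_le_left hN))) ?_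
  rw [hPcard, mul_comm ((2 : ℝ) ^ n), mul_assoc, mul_comm]
  exact mul_lt_mul_of_pos_right hk (by positivity)

/-- The property in van der Waerden's theorem. -/
def HasSymmetricGroup {n : ℕ} (a : Fin n → ℤ) : Prop :=
  Irreducible ((monicOf a).map (Int.castRingHom ℚ)) ∧
    Nonempty (((monicOf a).map (Int.castRingHom ℚ)).Gal ≃* Equiv.Perm (Fin n))

lemma hasSymmetricGroup_of_types {n : ℕ} (hn : 2 ≤ n) {a : Fin n → ℤ} {p₁ p₂ p₃ : ℕ}
    [Fact p₁.Prime] [Fact p₂.Prime] [Fact p₃.Prime]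
    (h₁ : (fun i => (a i : ZMod p₁)) ∈ irrSet p₁ n)
    (h₂ : 3 ≤ n → (fun i => (a i : ZMod p₂)) ∈ rootSetType p₂ n)
    (h₃ : (fun i => (a i : ZMod p₃)) ∈ swapType p₃ n) : HasSymmetricGroup a := by
  set f := (monicOf a).map (Int.castRingHom ℚ)
  let : Algebra ℚ f.SplittingField := SplittingField.instAlgebra_1 f
  have : IsSplittingField ℚ f.SplittingField f := IsSplittingField.splittingField f
  obtain ⟨hirr, ⟨e⟩⟩ := nonempty_perm_of_types (L := f.SplittingField) hn h₁ h₂ h₃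
  exact ⟨hirr, ⟨e⟩⟩

lemma hasSymmetricGroup_one (a : Fin 1 → ℤ) : HasSymmetricGroup a := by
  set f := (monicOf a).map (Int.castRingHom ℚ)
  have hd : f.natDegree = 1 := by rw [(monicOf_monic a).natDegree_map, natDegree_monicOf]
  have hs : f.Splits := Splits.of_natDegree_eq_one hd
  have : Subsingleton f.Gal := by
    have := Fact.mk hs
    infer_instance
  exact ⟨irreducible_of_degree_eq_one (degree_eq_iff_natDegree_eq_of_pos one_pos |>.2 hd),
    ⟨{ toFun := fun _ => 1
       invFun := fun _ => 1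
       left_inv := fun _ => Subsingleton.elim _ _
       right_inv := fun _ => Subsingleton.elim _ _
       map_mul' := fun _ _ => (mul_one 1).symm }⟩⟩

/-- **Van der Waerden's theorem.** -/
theorem tendsto_not_symmetric {n : ℕ} (hn : 1 ≤ n) :
    Tendsto (fun N : ℕ =>
      ({a : Fin n → ℤ | (∀ i, |a i| ≤ N) ∧ ¬ HasSymmetricGroup a}.ncard : ℝ) / (2 * N + 1) ^ n)
      atTop (𝓝 0) := by
  classical
  rcases hn.eq_or_lt with rfl | hn2
  · simp [hasSymmetricGroup_one]
  set p₀ := max 3 (2 * n)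
  let g₁ : ∀ p, Finset (Fin n → ZMod p) := fun p =>
    if h : p.Prime then haveI := Fact.mk h; irrSet p n else ∅
  let g₂ : ∀ p, Finset (Fin n → ZMod p) := fun p =>
    if h : p.Prime then haveI := Fact.mk h; rootSetType p n else ∅
  let g₃ : ∀ p, Finset (Fin n → ZMod p) := fun p =>
    if h : p.Prime then haveI := Fact.mk h; swapType p n else ∅
  have t₁ := tendsto_avoidsAll g₁ (C := 2 * n) (p₀ := p₀) (by omega) fun p hp hp0 => by
    have := Fact.mk hp
    simp only [g₁, dif_pos hp]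
    exact pow_le_card_irrSet (le_of_max_le_left hp0) (by omega)
  have t₃ := tendsto_avoidsAll g₃ (C := 4 * 2 ^ n * n !) (p₀ := p₀) (by positivity)
    fun p hp hp0 => by
    have := Fact.mk hp
    simp only [g₃, dif_pos hp]
    exact pow_le_card_swapType (le_of_max_le_left hp0) hn2 (le_of_max_le_right hp0)
  have hkey : ∀ a : Fin n → ℤ, ∀ p₁ p₂ p₃ : ℕ, p₁.Prime → p₂.Prime → p₃.Prime →
      (fun i => (a i : ZMod p₁)) ∈ g₁ p₁ → (3 ≤ n → (fun i => (a i : ZMod p₂)) ∈ g₂ p₂) →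
      (fun i => (a i : ZMod p₃)) ∈ g₃ p₃ → HasSymmetricGroup a := by
    intro a p₁ p₂ p₃ h1 h2 h3 m1 m2 m3
    have := Fact.mk h1
    have := Fact.mk h2
    have := Fact.mk h3
    simp only [g₁, g₂, g₃, dif_pos h1, dif_pos h2, dif_pos h3] at m1 m2 m3
    exact hasSymmetricGroup_of_types hn2 m1 m2 m3
  set S : (∀ p, Finset (Fin n → ZMod p)) → ℕ → Set (Fin n → ℤ) := fun g N =>
    {a | (∀ i, |a i| ≤ N) ∧ ∀ p, p.Prime → p₀ ≤ p → (fun i => (a i : ZMod p)) ∉ g p}
  have hfin : ∀ g N, (S g N).Finite := fun g N =>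
    (box n N).finite_toSet.subset fun a ha => mem_box.2 ha.1
  obtain ⟨q, hq0, hq⟩ := Nat.exists_infinite_primes p₀
  by_cases hn3 : 3 ≤ n
  · have t₂ := tendsto_avoidsAll g₂ (C := 2 * n) (p₀ := p₀) (by omega) fun p hp hp0 => by
      have := Fact.mk hp
      simp only [g₂, dif_pos hp]
      exact pow_le_card_rootSetType (le_of_max_le_left hp0) hn3
    refine squeeze_zero (fun N => by positivity) (fun N => ?_) (by simpa using (t₁.add t₂).add t₃)
    rw [← add_div, ← add_div]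
    refine div_le_div_of_nonneg_right ?_ (by positivity)
    have hsub : {a : Fin n → ℤ | (∀ i, |a i| ≤ N) ∧ ¬ HasSymmetricGroup a}
        ⊆ S g₁ N ∪ S g₂ N ∪ S g₃ N := by
      rintro a ⟨ha, hbad⟩
      by_contra hc
      simp only [S, Set.mem_union, Set.mem_ofPred_eq, not_or, not_and, not_forall, not_not] at hc
      obtain ⟨⟨c1, c2⟩, c3⟩ := hc
      obtain ⟨p₁, h1, -, m1⟩ := c1 ha
      obtain ⟨p₂, h2, -, m2⟩ := c2 ha
      obtain ⟨p₃, h3, -, m3⟩ := c3 ha
      exact hbad (hkey a p₁ p₂ p₃ h1 h2 h3 m1 (fun _ => m2) m3)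
    have h := (Set.ncard_le_ncard hsub (((hfin g₁ N).union (hfin g₂ N)).union (hfin g₃ N))).trans
      ((Set.ncard_union_le _ _).trans (Nat.add_le_add_right (Set.ncard_union_le _ _) _))
    exact_mod_cast h
  · refine squeeze_zero (fun N => by positivity) (fun N => ?_) (by simpa using t₁.add t₃)
    rw [← add_div]
    refine div_le_div_of_nonneg_right ?_ (by positivity)
    have hsub : {a : Fin n → ℤ | (∀ i, |a i| ≤ N) ∧ ¬ HasSymmetricGroup a} ⊆ S g₁ N ∪ S g₃ N := by
      rintro a ⟨ha, hbad⟩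
      by_contra hc
      simp only [S, Set.mem_union, Set.mem_ofPred_eq, not_or, not_and, not_forall, not_not] at hc
      obtain ⟨c1, c3⟩ := hc
      obtain ⟨p₁, h1, -, m1⟩ := c1 ha
      obtain ⟨p₃, h3, -, m3⟩ := c3 ha
      exact hbad (hkey a p₁ q p₃ h1 hq h3 m1 (fun h => absurd h hn3) m3)
    have h := (Set.ncard_le_ncard hsub ((hfin g₁ N).union (hfin g₃ N))).trans
      (Set.ncard_union_le _ _)
    exact_mod_cast h

end Fermat.Agent.VanDerWaerden
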